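import Mathlib
import Fermat.Agent.S25.H567.TensorDomain

/-!
# A3 / FIN / INJ — linear disjointness core (helper199, Mathlib + landed S25/H567)

`k` algebraically closed, `C ⊇ k` a field, `E ⊇ k` a field with a `k`-algebra map `φ : E → M`
into a domain `M ⊇ C`, `t ∈ E` with `φ t` transcendental over `C` and `E` algebraic over `k(t)`.
Then `C ⊗[k] E → M` is injective (`mulHom_injective`), hence `k`-linearly independent families
of `E` stay `C`-linearly independent in `M` (`linearIndependent_map_of_transcendental`).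
-/

set_option autoImplicit false
set_option linter.style.haveILetI false
set_option linter.unusedSectionVars false

noncomputable section

open TensorProduct Polynomial

namespace Fermat.Agent.A3.H199

/-- Pattern lemma: a ring hom out of a domain `S`, algebraic over `R`, which is injective on `R`,
is injective. -/
theorem injective_of_isAlgebraic_of_comp {R S M : Type*} [CommRing R] [CommRing S] [IsDomain S]
    [CommRing M] [Algebra R S] (halg : ∀ s : S, IsAlgebraic R s) (f : S →+* M)
    (hf : Function.Injective (f.comp (algebraMap R S))) : Function.Injective f := by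
  rw [injective_iff_map_eq_zero]
  intro x hx
  by_contra hx0
  have hmem : x ∈ RingHom.ker f := hx
  have h1 := Ideal.comap_ne_bot_of_algebraic_mem (R := R) hx0 hmem (halg x)
  apply h1
  rw [eq_bot_iff]
  intro r hr
  have hr' : f (algebraMap R S r) = 0 := hr
  have : r = 0 := hf (by simpa using hr')
  simp [this]

section Core

variable {k C E M : Type*} [Field k] [Field C] [Field E] [CommRing M]
  [Algebra k C] [Algebra k E] [Algebra C M] [Algebra k M] [IsScalarTower k C M]

/-- The multiplication map `C ⊗[k] E → M`, `c ⊗ e ↦ c • φ e`. -/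
def mulHom (φ : E →ₐ[k] M) : C ⊗[k] E →ₐ[C] M :=
  Algebra.TensorProduct.lift (Algebra.ofId C M) φ (fun _ _ => Commute.all _ _)

@[simp] theorem mulHom_tmul (φ : E →ₐ[k] M) (c : C) (e : E) :
    mulHom φ (c ⊗ₜ[k] e) = algebraMap C M c * φ e := by
  simp [mulHom, Algebra.ofId_apply]


/-- algebraic over `k[t]` ⇒ algebraic over `k[X]` acting through `X ↦ t`. -/
theorem isAlgebraic_polynomial_of_adjoin (t : E) {e : E}
    (he : IsAlgebraic (Algebra.adjoin k {t}) e) :
    letI : Algebra k[X] E := (aeval t : k[X] →ₐ[k] E).toRingHom.toAlgebra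
    IsAlgebraic k[X] e := by
  letI : Algebra k[X] E := (aeval t : k[X] →ₐ[k] E).toRingHom.toAlgebra
  let t' : Algebra.adjoin k {t} := ⟨t, Algebra.self_mem_adjoin_singleton k t⟩
  let f : k[X] →+* Algebra.adjoin k {t} := (aeval t' : k[X] →ₐ[k] _).toRingHom
  have hf : Function.Surjective f := by
    rintro ⟨x, hx⟩
    rw [Algebra.adjoin_singleton_eq_range_aeval] at hx
    obtain ⟨p, hp⟩ := hx
    refine ⟨p, Subtype.ext ?_⟩
    show ((aeval t' p : Algebra.adjoin k {t}) : E) = x
    rw [Polynomial.aeval_subalgebra_coe]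
    exact hp
  refine IsAlgebraic.of_ringHom_of_comp_eq (R := k[X]) (S := Algebra.adjoin k {t}) (A := E)
    (B := E) f (RingHom.id E) (a := e) he hf Function.injective_id ?_
  apply Polynomial.ringHom_ext
  · intro a
    show ((aeval t' (Polynomial.C a) : Algebra.adjoin k {t}) : E) = aeval t (Polynomial.C a)
    rw [Polynomial.aeval_subalgebra_coe]
  · show ((aeval t' Polynomial.X : Algebra.adjoin k {t}) : E) = aeval t Polynomial.X
    rw [Polynomial.aeval_subalgebra_coe]

theorem mulHom_injective [IsAlgClosed k] [IsDomain M] (φ : E →ₐ[k] M) (t : E)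
    (ht : Transcendental C (φ t)) (halg : ∀ e : E, IsAlgebraic (Algebra.adjoin k {t}) e) :
    Function.Injective (mulHom (C := C) φ) := by
  haveI : IsDomain (C ⊗[k] E) := Fermat.Agent.S25.H567.isDomain_tensorProduct_of_isAlgClosed k C E
  letI algE : Algebra k[X] E := (aeval t : k[X] →ₐ[k] E).toRingHom.toAlgebra
  letI algD : Algebra C[X] (C ⊗[k] E) :=
    (aeval (1 ⊗ₜ[k] t : C ⊗[k] E) : C[X] →ₐ[C] C ⊗[k] E).toRingHom.toAlgebra
  have hinjC : Function.Injective (algebraMap k C) := (algebraMap k C).injective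
  -- `1 ⊗ e` is algebraic over `C[X]`
  have h1 : ∀ e : E, IsAlgebraic C[X] ((1 : C) ⊗ₜ[k] e) := by
    intro e
    have he : IsAlgebraic k[X] e := isAlgebraic_polynomial_of_adjoin t (halg e)
    have := IsAlgebraic.ringHom_of_comp_eq (R := k[X]) (S := C[X]) (A := E) (B := C ⊗[k] E)
      (Polynomial.mapRingHom (algebraMap k C))
      ((Algebra.TensorProduct.includeRight : E →ₐ[k] C ⊗[k] E) : E →+* C ⊗[k] E) (a := e) he
      (Polynomial.map_injective _ hinjC) ?_
    · simpa using this
    · apply Polynomial.ringHom_ext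
      · intro a
        show aeval (1 ⊗ₜ[k] t : C ⊗[k] E) (Polynomial.map (algebraMap k C) (Polynomial.C a))
          = (1 : C) ⊗ₜ[k] (aeval t (Polynomial.C a))
        simp only [Polynomial.map_C, aeval_C]
        rw [Algebra.TensorProduct.algebraMap_apply, Algebra.algebraMap_eq_smul_one a,
          Algebra.algebraMap_eq_smul_one (A := E) a, TensorProduct.tmul_smul]
        simp [TensorProduct.smul_tmul']
      · show aeval (1 ⊗ₜ[k] t : C ⊗[k] E) (Polynomial.map (algebraMap k C) Polynomial.X)
          = (1 : C) ⊗ₜ[k] (aeval t Polynomial.X)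
        simp
  have h2 : ∀ s : C ⊗[k] E, IsAlgebraic C[X] s := by
    intro s
    induction s using TensorProduct.induction_on with
    | zero => exact isAlgebraic_zero
    | tmul c e =>
        have hc : (c ⊗ₜ[k] e : C ⊗[k] E) = algebraMap C[X] (C ⊗[k] E) (Polynomial.C c)
            * ((1 : C) ⊗ₜ[k] e) := by
          show _ = aeval (1 ⊗ₜ[k] t : C ⊗[k] E) (Polynomial.C c) * _
          rw [aeval_C, Algebra.TensorProduct.algebraMap_apply,
            Algebra.TensorProduct.tmul_mul_tmul]
          simp
        rw [hc]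
        exact (isAlgebraic_algebraMap _).mul (h1 e)
    | add x y hx hy => exact hx.add hy
  refine injective_of_isAlgebraic_of_comp (R := C[X]) h2 (mulHom (C := C) φ).toRingHom ?_
  have ht' := (transcendental_iff_injective).1 ht
  intro p q hpq
  apply ht'
  have key : ∀ r : C[X], (mulHom (C := C) φ) (aeval (1 ⊗ₜ[k] t : C ⊗[k] E) r) = aeval (φ t) r := by
    intro r
    rw [← Polynomial.aeval_algHom_apply]
    simp
  have := hpq
  simp only [RingHom.comp_apply] at this
  change (mulHom (C := C) φ) (aeval (1 ⊗ₜ[k] t : C ⊗[k] E) p)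
    = (mulHom (C := C) φ) (aeval (1 ⊗ₜ[k] t : C ⊗[k] E) q) at this
  rwa [key, key] at this


theorem mulHom_injective_of_isAlgebraic [IsAlgClosed k] [IsDomain M]
    {E' : Type*} [Field E'] [Algebra k E'] [Algebra E E'] [IsScalarTower k E E']
    (halg : ∀ e : E', IsAlgebraic E e) (φ' : E' →ₐ[k] M)
    (hφ : Function.Injective (mulHom (C := C) (φ'.comp (IsScalarTower.toAlgHom k E E')))) :
    Function.Injective (mulHom (C := C) φ') := by
  haveI : IsDomain (C ⊗[k] E) := Fermat.Agent.S25.H567.isDomain_tensorProduct_of_isAlgClosed k C E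
  haveI : IsDomain (C ⊗[k] E') :=
    Fermat.Agent.S25.H567.isDomain_tensorProduct_of_isAlgClosed k C E'
  let ψ : C ⊗[k] E →ₐ[C] C ⊗[k] E' :=
    Algebra.TensorProduct.map (AlgHom.id C C) (IsScalarTower.toAlgHom k E E')
  letI algD : Algebra (C ⊗[k] E) (C ⊗[k] E') := ψ.toRingHom.toAlgebra
  have hψ : ∀ x, algebraMap (C ⊗[k] E) (C ⊗[k] E') x = ψ x := fun _ => rfl
  have hinjC : Function.Injective (algebraMap k C) := (algebraMap k C).injective
  have h1 : ∀ e : E', IsAlgebraic (C ⊗[k] E) ((1 : C) ⊗ₜ[k] e) := by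
    intro e
    have := IsAlgebraic.ringHom_of_comp_eq (R := E) (S := C ⊗[k] E) (A := E') (B := C ⊗[k] E')
      ((Algebra.TensorProduct.includeRight : E →ₐ[k] C ⊗[k] E) : E →+* C ⊗[k] E)
      ((Algebra.TensorProduct.includeRight : E' →ₐ[k] C ⊗[k] E') : E' →+* C ⊗[k] E') (a := e)
      (halg e) (Algebra.TensorProduct.includeRight_injective hinjC) ?_
    · simpa using this
    · ext x
      simp [hψ, ψ]
  have h2 : ∀ s : C ⊗[k] E', IsAlgebraic (C ⊗[k] E) s := by
    intro s
    induction s using TensorProduct.induction_on with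
    | zero => exact isAlgebraic_zero
    | tmul c e =>
        have hc : (c ⊗ₜ[k] e : C ⊗[k] E') = algebraMap (C ⊗[k] E) (C ⊗[k] E') (c ⊗ₜ[k] 1)
            * ((1 : C) ⊗ₜ[k] e) := by
          rw [hψ]
          simp [ψ]
        rw [hc]
        exact (isAlgebraic_algebraMap _).mul (h1 e)
    | add x y hx hy => exact hx.add hy
  refine injective_of_isAlgebraic_of_comp (R := C ⊗[k] E) h2 (mulHom (C := C) φ').toRingHom ?_
  have hcomp : ∀ x : C ⊗[k] E, (mulHom (C := C) φ') (ψ x)
      = mulHom (C := C) (φ'.comp (IsScalarTower.toAlgHom k E E')) x := by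
    intro x
    induction x using TensorProduct.induction_on with
    | zero => simp
    | tmul c e => simp [ψ]
    | add x y hx hy => simp only [map_add, hx, hy]
  intro x y hxy
  apply hφ
  rw [← hcomp, ← hcomp]
  exact hxy

/-- `k`-linearly independent families stay `C`-linearly independent. -/
theorem linearIndependent_map_of_mulHom_injective (φ : E →ₐ[k] M)
    (hinj : Function.Injective (mulHom (C := C) φ)) {ι : Type*} {v : ι → E}
    (hv : LinearIndependent k v) : LinearIndependent C (fun i => φ (v i)) := by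
  have h1 : LinearIndependent C (fun i => (1 : C) ⊗ₜ[k] v i) :=
    Module.Flat.linearIndependent_one_tmul (S := C) hv
  have h2 := h1.map' (mulHom (C := C) φ).toLinearMap
    (LinearMap.ker_eq_bot.2 hinj)
  have h3 : ((mulHom (C := C) φ).toLinearMap ∘ fun i => (1 : C) ⊗ₜ[k] v i)
      = fun i => φ (v i) := by
    funext i
    simp
  rwa [h3] at h2

end Core

end Fermat.Agent.A3.H199
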