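import Mathlib
import Fermat.Agent.A3.H199.Disjoint

set_option autoImplicit false
set_option linter.style.haveILetI false

noncomputable section

open TensorProduct Polynomial IntermediateField

namespace Fermat.Agent.A3.H199

/-- powers of a transcendental element are linearly independent -/
theorem linearIndependent_pow_of_transcendental {k A : Type*} [Field k] [CommRing A] [Algebra k A]
    {t : A} (ht : Transcendental k t) : LinearIndependent k (fun n : ℕ => t ^ n) := by
  have h1 := (Polynomial.basisMonomials k).linearIndependent.map' (aeval t).toLinearMap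
    (LinearMap.ker_eq_bot.2 ((transcendental_iff_injective).1 ht))
  have h2 : ((aeval t).toLinearMap ∘ ⇑(Polynomial.basisMonomials k)) = fun n : ℕ => t ^ n := by
    funext n
    simp
  rwa [h2] at h1

/-- If the family `J ^ n * x i` is `C`-linearly independent, then `x` is linearly independent
over `C(J)`. -/
theorem linearIndependent_adjoin_of_pow_mul {C M ι : Type*} [Field C] [Field M] [Algebra C M]
    (J : M) (x : ι → M)
    (h : LinearIndependent C (fun p : ℕ × ι => J ^ p.1 * x p.2)) :
    LinearIndependent (IntermediateField.adjoin C {J}) x := by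
  classical
  open scoped IntermediateField.algebraAdjoinAdjoin in
  rw [← LinearIndependent.iff_fractionRing (Algebra.adjoin C {J}) (IntermediateField.adjoin C {J})]
  rw [linearIndependent_iff']
  intro s g hg i hi
  have hex : ∀ j, ∃ p : C[X], aeval J p = (g j : M) := by
    intro j
    have h1 : (g j : M) ∈ Algebra.adjoin C ({J} : Set M) := (g j).2
    have h2 : (g j : M) ∈ (aeval J : C[X] →ₐ[C] M).range := by
      rw [← Algebra.adjoin_singleton_eq_range_aeval]
      exact h1
    exact h2
  choose p hp using hex
  set D := s.sup (fun j => (p j).natDegree) with hD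
  have hsum : ∑ q ∈ (Finset.range (D + 1)) ×ˢ s, (p q.2).coeff q.1 • (J ^ q.1 * x q.2) = 0 := by
    rw [Finset.sum_product_right]
    rw [← hg]
    refine Finset.sum_congr rfl fun j hj => ?_
    have hdeg : (p j).natDegree < D + 1 :=
      Nat.lt_succ_of_le (Finset.le_sup (f := fun j => (p j).natDegree) hj)
    show _ = (g j : M) * x j
    rw [← hp j, Polynomial.aeval_eq_sum_range' hdeg, Finset.sum_mul]
    refine Finset.sum_congr rfl fun n _ => ?_
    rw [smul_mul_assoc]
  have hzero := linearIndependent_iff'.1 h _ (fun q => (p q.2).coeff q.1) hsum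
  have hpi : p i = 0 := by
    ext n
    by_cases hn : n < D + 1
    · simpa using hzero (n, i) (Finset.mem_product.2 ⟨Finset.mem_range.2 hn, hi⟩)
    · have hdeg : (p i).natDegree < D + 1 :=
        Nat.lt_succ_of_le (Finset.le_sup (f := fun j => (p j).natDegree) hi)
      rw [Polynomial.coeff_eq_zero_of_natDegree_lt (by omega)]
      simp
  apply Subtype.ext
  rw [← hp i, hpi]
  simp


end Fermat.Agent.A3.H199
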