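import Mathlib
import Fermat.Agent.A3.H199.Disjoint
import Fermat.Agent.A3.H199.Descent0

/-!
# A3 / FIN / INJ — descent by degree count (helper199, Mathlib + `Disjoint.lean`)

`mem_range_of_isIntegral_of_finrank_le`: `k` algebraically closed, `k ⊆ C ⊆ M` fields,
`φ : E → M` a `k`-embedding of a field `E` finite over `k(t)`, `J = φ t` transcendental over `C`,
`W ⊇ C(J)` an intermediate field of `M` containing `φ E` with `[W : C(J)] ≤ [E : k(t)]`.
Then every `h ∈ W` integral over `φ E` lies in `φ E`.
-/

set_option autoImplicit false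
set_option linter.style.haveILetI false

noncomputable section

open TensorProduct Polynomial IntermediateField

namespace Fermat.Agent.A3.H199

section Main

variable {k C E M : Type*} [Field k] [IsAlgClosed k] [Field C] [Field E] [Field M]
  [Algebra k C] [Algebra k E] [Algebra C M] [Algebra k M] [IsScalarTower k C M]

/-- **Descent by degree count.** -/
theorem mem_range_of_isIntegral_of_finrank_le
    (φ : E →ₐ[k] M) (t : E) (J : M) (hJ : φ t = J) (hJt : Transcendental C J)
    (hfdE : FiniteDimensional k⟮t⟯ E)
    (L : IntermediateField C M) (hL : L = IntermediateField.adjoin C {J})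
    (W : IntermediateField L M) (hfdW : FiniteDimensional L W)
    (hW : Module.finrank L W ≤ Module.finrank k⟮t⟯ E)
    (hφW : ∀ e, φ e ∈ W)
    (h : M) (hhW : h ∈ W)
    (hint : ∃ P : E[X], P.Monic ∧ P.eval₂ (φ : E →+* M) h = 0) :
    h ∈ Set.range φ := by
  subst hL
  classical
  letI algEM : Algebra E M := (φ : E →+* M).toAlgebra
  haveI towEM : IsScalarTower k E M :=
    IsScalarTower.of_algebraMap_eq (fun x => (φ.commutes x).symm)
  have halgEM : ∀ e : E, algebraMap E M e = φ e := fun _ => rfl
  have hint' : IsIntegral E h := hint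
  haveI fdE' : FiniteDimensional E E⟮h⟯ := IntermediateField.adjoin.finiteDimensional hint'
  -- `E⟮h⟯ ⊆ W`
  have hE'W : ∀ x ∈ E⟮h⟯, x ∈ W := by
    let T : IntermediateField E M := W.toSubfield.toIntermediateField (fun e => hφW e)
    have hle : E⟮h⟯ ≤ T := by
      rw [IntermediateField.adjoin_le_iff]
      intro x hx
      rw [Set.mem_singleton_iff] at hx
      subst hx
      exact hhW
    intro x hx
    exact hle hx
  -- transcendence of `t`
  have htk : Transcendental k t := by
    intro halg
    apply hJt
    rw [← hJ]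
    exact (halg.algHom φ).extendScalars (algebraMap k C).injective
  have hgen : Transcendental k (AdjoinSimple.gen k t) := by
    intro halg
    apply htk
    have := halg.algHom (k⟮t⟯.val)
    simpa using this
  -- the three linearly independent families
  let d := Module.finrank k⟮t⟯ E
  let m := Module.finrank E E⟮h⟯
  let b : Module.Basis (Fin d) k⟮t⟯ E := Module.finBasis k⟮t⟯ E
  let c : Module.Basis (Fin m) E E⟮h⟯ := Module.finBasis E E⟮h⟯
  have h1 : LinearIndependent k (fun n : ℕ => (AdjoinSimple.gen k t) ^ n) :=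
    linearIndependent_pow_of_transcendental hgen
  let w : ℕ × Fin d → E := fun p => (AdjoinSimple.gen k t) ^ p.1 • b p.2
  have hw : ∀ p, w p = t ^ p.1 * b p.2 := by
    intro p
    show (AdjoinSimple.gen k t) ^ p.1 • b p.2 = _
    rw [Algebra.smul_def]
    simp
  have h2 : LinearIndependent k w :=
    linearIndependent_smul h1 b.linearIndependent
  have h3 : LinearIndependent k
      (fun q : (ℕ × Fin d) × Fin m => (w q.1) • c q.2) :=
    linearIndependent_smul h2 c.linearIndependent
  -- linear disjointness
  let φ' : E⟮h⟯ →ₐ[k] M := (E⟮h⟯.val).restrictScalars k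
  have halg1 : ∀ e : E, IsAlgebraic (Algebra.adjoin k {t}) e := by
    intro e
    open scoped IntermediateField.algebraAdjoinAdjoin in
    rw [IsFractionRing.isAlgebraic_iff (Algebra.adjoin k {t}) k⟮t⟯ E]
    exact Algebra.IsAlgebraic.isAlgebraic e
  have hφt : Transcendental C (φ t) := by rw [hJ]; exact hJt
  have hinj1 : Function.Injective (mulHom (C := C) φ) := mulHom_injective φ t hφt halg1
  have hcomp : φ'.comp (IsScalarTower.toAlgHom k E E⟮h⟯) = φ := by
    ext e
    rfl
  have hinj2 : Function.Injective (mulHom (C := C) φ') := by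
    apply mulHom_injective_of_isAlgebraic (E := E)
      (fun e => Algebra.IsAlgebraic.isAlgebraic e) φ'
    rw [hcomp]
    exact hinj1
  have h4 := linearIndependent_map_of_mulHom_injective (C := C) φ' hinj2 h3
  -- reindex
  have h5 : LinearIndependent C
      (fun p : ℕ × (Fin d × Fin m) => J ^ p.1 * (φ (b p.2.1) * (c p.2.2 : M))) := by
    have := h4.comp (fun p : ℕ × (Fin d × Fin m) => ((p.1, p.2.1), p.2.2))
      (fun p q hpq => by
        obtain ⟨p1, p2, p3⟩ := p
        obtain ⟨q1, q2, q3⟩ := q
        simp only [Prod.mk.injEq] at hpq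
        obtain ⟨⟨h1, h2⟩, h3⟩ := hpq
        simp [h1, h2, h3])
    convert this using 1
    funext p
    show _ = φ' ((w (p.1, p.2.1)) • c p.2.2)
    have e1 : φ' ((w (p.1, p.2.1)) • c p.2.2)
        = algebraMap E M (w (p.1, p.2.1)) * (c p.2.2 : M) := by
      show (((w (p.1, p.2.1)) • c p.2.2 : E⟮h⟯) : M) = _
      rw [IntermediateField.coe_smul, Algebra.smul_def]
    rw [e1, halgEM, hw, map_mul, map_pow, hJ, mul_assoc]
  have h6 : LinearIndependent (IntermediateField.adjoin C {J})
      (fun r : Fin d × Fin m => φ (b r.1) * (c r.2 : M)) :=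
    linearIndependent_adjoin_of_pow_mul J _ h5
  have hmemW : ∀ r : Fin d × Fin m, φ (b r.1) * (c r.2 : M) ∈ W :=
    fun r => W.mul_mem (hφW _) (hE'W _ (c r.2).2)
  have h7 : LinearIndependent (IntermediateField.adjoin C {J})
      (fun r : Fin d × Fin m => (⟨φ (b r.1) * (c r.2 : M), hmemW r⟩ : W)) := by
    apply LinearIndependent.of_comp (W.val.toLinearMap)
    exact h6
  have h8 := h7.fintype_card_le_finrank
  rw [Fintype.card_prod, Fintype.card_fin, Fintype.card_fin] at h8
  have hdpos : 0 < d := Module.finrank_pos
  have hmpos : 0 < m := Module.finrank_pos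
  have hm1 : m = 1 := by
    have : d * m ≤ d := h8.trans hW
    have : m ≤ 1 := by
      by_contra hcon
      push Not at hcon
      have : d * 2 ≤ d * m := Nat.mul_le_mul_left d hcon
      omega
    omega
  have hbot : h ∈ (⊥ : IntermediateField E M) :=
    IntermediateField.finrank_adjoin_simple_eq_one_iff.1 hm1
  rw [IntermediateField.mem_bot] at hbot
  obtain ⟨e, he⟩ := hbot
  exact ⟨e, he⟩

end Main

end Fermat.Agent.A3.H199
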