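import Fermat.Agent.S24.Mod
import Fermat.Agent.S24.Mod.H564Deg
import Fermat.Agent.S24.H624.ModField

/-!
# A3 / FIN — the analytic embedding `Phi N : FF N →+* MerH` (helper199)

`FF N = ℚ̄(j(q^d) : d ∣ N)` (function field of `X₀(N)` over `ℚ̄`) is embedded into the field
`MerH` of meromorphic functions on `ℍ` (landed S24/H624), by the landed `H997` bridge
`RN N → holN N ⊆ holoRing`.  We prove:

* `Phi_algebraMap` : constants go to constants (through `ιK : ℚ̄ → ℂ`);
* `Phi_jF` : `Phi N (jF N) = jM`;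
* `smul_Phi` : every `Phi N f` is `Γ₀(N)`-invariant;
* `Phi_mem_modFunField` : `Phi N f ∈ modFunField Γ₀(N)` (invariant and meromorphic at all cusps).
-/

set_option autoImplicit false
set_option linter.style.haveILetI false

noncomputable section

open ModularCurve HahnSeries UpperHalfPlane
open scoped MatrixGroups Manifold Real

namespace Fermat.Agent.A3.H199

open Fermat.Agent.S24 Fermat.Agent.S24.H997 Fermat.Agent.S24.H624

variable (N : ℕ) [NeZero N]

/-- the inclusion `holN N → holoRing` -/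
def holIncl : (holBase N).Hol →+* holoRing where
  toFun f := ⟨f.1, f.2.1⟩
  map_one' := rfl
  map_mul' _ _ := rfl
  map_zero' := rfl
  map_add' _ _ := rfl

theorem holIncl_injective : Function.Injective (holIncl N) := by
  intro f g h
  apply Subtype.ext
  exact congrArg (fun x : holoRing => (x : ℍ → ℂ)) h

@[simp] theorem holIncl_apply (f : (holBase N).Hol) (τ : ℍ) :
    ((holIncl N f : holoRing) : ℍ → ℂ) τ = (f : ℍ → ℂ) τ := rfl

/-- the analytic realisation of `RN N` -/
def PhiR : RN N →+* MerH :=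
  (algebraMap holoRing MerH).comp ((holIncl N).comp (holBase N).bridge)

theorem PhiR_apply (r : RN N) :
    PhiR N r = algebraMap holoRing MerH (holIncl N ((holBase N).bridge r)) := rfl

theorem PhiR_injective : Function.Injective (PhiR N) := by
  intro r s h
  apply (holBase N).bridge_injective
  apply holIncl_injective N
  exact IsFractionRing.injective holoRing MerH h

/-- **The analytic embedding** `FF N → MerH`. -/
def Phi : FF N →+* MerH := liftF (PhiR N) (PhiR_injective N)

theorem Phi_inclRN (r : RN N) : Phi N (inclRN N r) = PhiR N r :=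
  liftF_inclRN _ _ r

theorem Phi_injective : Function.Injective (Phi N) := (Phi N).injective

theorem Phi_algebraMap (c : Kbar) :
    Phi N (algebraMap Kbar (FF N) c) = algebraMap ℂ MerH (ιK c) := by
  rw [Phi, liftF_algebraMap, PhiR_apply, HolBase.bridge_algebraMap]
  rw [IsScalarTower.algebraMap_apply ℂ holoRing MerH]
  rfl

theorem jFun_L1_apply (τ : ℍ) : Fermat.Agent.S20.L1.jFun τ = H108.jFun τ := by
  unfold Fermat.Agent.S20.L1.jFun H108.jFun
  rfl

theorem jFun_L1_eq : Fermat.Agent.S20.L1.jFun = H108.jFun := funext jFun_L1_apply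

theorem holIncl_JH_one : holIncl N ((holBase N).JH 1 (one_dvd N)) = jH := by
  apply Subtype.ext
  show Jd 1 = H108.jFun
  rw [Jd_one, jFun_L1_eq]

theorem Phi_jF : Phi N (jF N) = jM := by
  rw [← inclRN_jR_one, Phi_inclRN, PhiR_apply, HolBase.bridge_jR, holIncl_JH_one]
  rfl

/-- `Γ₀(N)`-invariance on `RN N`. -/
theorem smul_PhiR {γ : SL(2, ℤ)} (hγ : γ ∈ CongruenceSubgroup.Gamma0 N) (r : RN N) :
    γ • PhiR N r = PhiR N r := by
  have key : γ • holIncl N ((holBase N).bridge r) = holIncl N ((holBase N).bridge r) := by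
    apply Subtype.ext
    funext τ
    rw [smul_holoRing_apply]
    have hinv : γ⁻¹ ∈ CongruenceSubgroup.Gamma0 N := inv_mem hγ
    have h := (holBase N).compH_bridge_of_mem hinv r
    have h2 := congrArg (fun x : (holBase N).Hol => (x : ℍ → ℂ) τ) h
    exact h2
  rw [PhiR_apply, smul_algebraMap_MerH, key]

/-- `Γ₀(N)`-invariance. -/
theorem smul_Phi {γ : SL(2, ℤ)} (hγ : γ ∈ CongruenceSubgroup.Gamma0 N) (f : FF N) :
    γ • Phi N f = Phi N f := by
  obtain ⟨r, t, -, rfl⟩ := exists_div_inclRN N f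
  rw [map_div₀, Phi_inclRN, Phi_inclRN, div_eq_mul_inv, smul_mul', smul_inv'',
    smul_PhiR N hγ, smul_PhiR N hγ]

/-- elements of `holN N` are meromorphic at all cusps -/
theorem isMeroAtCusps_holIncl (f : (holBase N).Hol) :
    IsMeroAtCusps (algebraMap holoRing MerH (holIncl N f)) := by
  intro γ
  rw [smul_algebraMap_MerH]
  have hmem : compSL γ⁻¹ (f : ℍ → ℂ) ∈ expRing N := f.2.2 γ⁻¹
  obtain ⟨φ, hφ⟩ := hmem
  obtain ⟨m, C, A, hb⟩ := H564.exists_growth_of_infExp hφ
  refine IsMeroAtInfty.of_holo_bounded (m := m) (Y := A) (C := C) fun τ hτ => ?_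
  rw [smul_holoRing_apply]
  exact hb τ hτ

theorem PhiR_mem_modFunField (r : RN N) :
    PhiR N r ∈ modFunField (CongruenceSubgroup.Gamma0 N) :=
  mem_modFunField.2 ⟨fun _ hγ => smul_PhiR N hγ r, isMeroAtCusps_holIncl N _⟩

theorem Phi_mem_modFunField (f : FF N) :
    Phi N f ∈ modFunField (CongruenceSubgroup.Gamma0 N) := by
  obtain ⟨r, t, -, rfl⟩ := exists_div_inclRN N f
  rw [map_div₀, Phi_inclRN, Phi_inclRN]
  exact div_mem (PhiR_mem_modFunField N r) (PhiR_mem_modFunField N t)

theorem isMeroAtCusps_Phi (f : FF N) : IsMeroAtCusps (Phi N f) :=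
  (mem_modFunField.1 (Phi_mem_modFunField N f)).2

end Fermat.Agent.A3.H199
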