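import Fermat.Agent.S24.H624.ModField

/-!
# A3 / FIN — roots of functions meromorphic at the cusps are meromorphic at the cusps (helper199)

* `isMeroAtInfty_of_pow` : `IsMeroAtInfty (F ^ n)`, `0 < n` ⟹ `IsMeroAtInfty F`;
* `isMeroAtCusps_of_pow` : the same at all cusps;
* `mem_modFunField_of_pow` : a `Γ`-invariant `F` with `F ^ n ∈ modFunField Γ` lies in
  `modFunField Γ`.
-/

set_option autoImplicit false

noncomputable section

open UpperHalfPlane Complex
open scoped MatrixGroups Manifold Real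

namespace Fermat.Agent.A3.H199

open Fermat.Agent.S24 Fermat.Agent.S24.H624

/-- a holomorphic `n`-th root inside `MerH` of a holomorphic function is holomorphic -/
theorem exists_holo_of_pow_eq {G : MerH} {n : ℕ} (hn : 0 < n) {c : holoRing}
    (h : G ^ n = algebraMap holoRing MerH c) :
    ∃ a' : holoRing, algebraMap holoRing MerH a' = G := by
  apply exists_holo_of_ordM_nonneg
  intro τ
  have h1 : ordM τ (G ^ n) = n * ordM τ G := ordM_pow τ G n
  have h2 : 0 ≤ ordM τ (G ^ n) := by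
    rw [h]
    exact ordM_algebraMap_nonneg τ c
  rw [h1] at h2
  have hn' : (0 : ℤ) < n := by exact_mod_cast hn
  exact nonneg_of_mul_nonneg_right h2 hn'

theorem le_of_pow_le_of_one_le {x B : ℝ} {n : ℕ} (hn : 0 < n) (_hx : 0 ≤ x) (hB : 1 ≤ B)
    (h : x ^ n ≤ B) : x ≤ B := by
  by_cases hx1 : x ≤ 1
  · exact hx1.trans hB
  · push Not at hx1
    have : x ≤ x ^ n := le_self_pow₀ hx1.le hn.ne'
    exact this.trans h

theorem isMeroAtInfty_of_pow {F : MerH} {n : ℕ} (hn : 0 < n) (h : IsMeroAtInfty (F ^ n)) :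
    IsMeroAtInfty F := by
  obtain ⟨a, b, m, Y, C, hab, hbound⟩ := h
  -- `G = F * b` has holomorphic `n`-th power `a * b ^ (n - 1)`
  have hG : (F * algebraMap holoRing MerH b) ^ n
      = algebraMap holoRing MerH (a * b ^ (n - 1)) := by
    rw [mul_pow, map_mul, map_pow, ← hab]
    have : (algebraMap holoRing MerH b) ^ n
        = algebraMap holoRing MerH b * (algebraMap holoRing MerH b) ^ (n - 1) := by
      rw [← pow_succ']
      congr 1
      omega
    rw [this]
    ring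
  obtain ⟨a', ha'⟩ := exists_holo_of_pow_eq hn hG
  have hpow : a' ^ n = a * b ^ (n - 1) := by
    apply IsFractionRing.injective holoRing MerH
    rw [map_pow, ha', hG]
  refine ⟨a', b, m, max Y 0, max C 1, ha'.symm, fun τ hτ => ?_⟩
  have hτY : Y ≤ τ.im := (le_max_left _ _).trans hτ
  obtain ⟨hb0, hb1⟩ := hbound τ hτY
  refine ⟨hb0, ?_⟩
  have hval : ((a' : ℍ → ℂ) τ) ^ n = (a : ℍ → ℂ) τ * ((b : ℍ → ℂ) τ) ^ (n - 1) := by
    have := congrArg (fun f : holoRing => (f : ℍ → ℂ) τ) hpow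
    exact this
  have hquot : ((a' : ℍ → ℂ) τ / (b : ℍ → ℂ) τ) ^ n = (a : ℍ → ℂ) τ / (b : ℍ → ℂ) τ := by
    rw [div_pow, hval]
    have hbn : ((b : ℍ → ℂ) τ) ^ n = (b : ℍ → ℂ) τ * ((b : ℍ → ℂ) τ) ^ (n - 1) := by
      rw [← pow_succ']
      congr 1
      omega
    rw [hbn]
    field_simp
  have hexp1 : 1 ≤ Real.exp (2 * π * m * τ.im) := by
    apply Real.one_le_exp
    have := τ.im_pos
    positivity
  have hB : 1 ≤ max C 1 * Real.exp (2 * π * m * τ.im) := by
    have h1 : (1 : ℝ) ≤ max C 1 := le_max_right _ _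
    calc (1 : ℝ) = 1 * 1 := by ring
      _ ≤ max C 1 * Real.exp (2 * π * m * τ.im) :=
        mul_le_mul h1 hexp1 zero_le_one (zero_le_one.trans h1)
  apply le_of_pow_le_of_one_le hn (norm_nonneg _) hB
  rw [← norm_pow, hquot]
  refine hb1.trans ?_
  exact mul_le_mul_of_nonneg_right (le_max_left _ _) (Real.exp_pos _).le

theorem isMeroAtCusps_of_pow {F : MerH} {n : ℕ} (hn : 0 < n) (h : IsMeroAtCusps (F ^ n)) :
    IsMeroAtCusps F := by
  intro γ
  apply isMeroAtInfty_of_pow hn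
  have := h γ
  rwa [smul_pow'] at this

theorem mem_modFunField_of_pow {Γ : Subgroup SL(2, ℤ)} [Γ.FiniteIndex] {F : MerH} {n : ℕ}
    (hn : 0 < n) (hinv : ∀ γ ∈ Γ, γ • F = F) (h : F ^ n ∈ modFunField Γ) :
    F ∈ modFunField Γ :=
  mem_modFunField.2 ⟨hinv, isMeroAtCusps_of_pow hn (mem_modFunField.1 h).2⟩

end Fermat.Agent.A3.H199
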