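import Fermat.Agent.A3.H199.Descent
import Fermat.Agent.A3.H199.Phi
import Fermat.Agent.A3.H199.Root

/-!
# A3 / FIN / INJ — descent of roots from `ℂ` to `ℚ̄` (helper199)

`Phi N : FF N →+* MerH` is the analytic embedding of the function field of `X₀(N)` over `ℚ̄`
(`Phi.lean`).  Main results:

* `mem_range_Phi_of_isIntegral` : a `Γ₀(N)`-invariant `h ∈ MerH`, meromorphic at all cusps and
  integral over `Phi N (FF N)`, lies in `Phi N (FF N)`;
* `exists_Phi_eq_of_pow_eq` (**INJ**) : a `Γ₀(N)`-invariant `h ∈ MerH` with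
  `h ^ n = Phi N g₀` (`n > 0`) is `Phi N g` for some `g : FF N`.

Proof: `h ∈ modFunField Γ₀(N)`, which has degree `≤ [SL₂(ℤ) : Γ₀(N)]` over `ℂ(j)` (landed
S24/H624); `[FF N : ℚ̄(j)] = [SL₂(ℤ) : Γ₀(N)]` (landed S24 `ModularPackage`); linear
disjointness of `Phi(FF N)(h)` and `ℂ` over `ℚ̄` (`Disjoint.lean`, `Descent.lean`).
-/

set_option autoImplicit false
set_option linter.style.haveILetI false

noncomputable section

open ModularCurve UpperHalfPlane IntermediateField
open scoped MatrixGroups Manifold Real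

namespace Fermat.Agent.A3.H199

open Fermat.Agent.S24 Fermat.Agent.S24.H997 Fermat.Agent.S24.H624

variable (N : ℕ) [NeZero N]

theorem transcendental_jM : Transcendental ℂ jM := by
  rintro ⟨p, hp0, hp⟩
  exact aeval_jM_ne_zero hp0 hp

/-- A `Γ₀(N)`-invariant element of `MerH`, meromorphic at all cusps and integral over
`Phi N (FF N)`, lies in `Phi N (FF N)`. -/
theorem mem_range_Phi_of_isIntegral {h : MerH}
    (hh : h ∈ modFunField (CongruenceSubgroup.Gamma0 N))
    (hint : ∃ P : Polynomial (FF N), P.Monic ∧ P.eval₂ (Phi N) h = 0) :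
    ∃ g : FF N, Phi N g = h := by
  obtain ⟨P⟩ := nonempty_modularPackage N
  letI algKC : Algebra Kbar ℂ := ιK.toAlgebra
  letI algKM : Algebra Kbar MerH := ((algebraMap ℂ MerH).comp ιK).toAlgebra
  haveI tow : @IsScalarTower Kbar ℂ MerH algKC.toSMul Algebra.toSMul algKM.toSMul :=
    @IsScalarTower.of_algebraMap_eq Kbar ℂ MerH _ _ _ algKC _ algKM (fun _ => rfl)
  let φ : @AlgHom Kbar (FF N) MerH _ _ _ _ algKM :=
    @AlgHom.mk Kbar (FF N) MerH _ _ _ _ algKM (Phi N) (fun c => Phi_algebraMap N c)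
  have hφ : ∀ e, φ e = Phi N e := fun _ => rfl
  obtain ⟨hfd, hle⟩ := finrank_modFunField_le (CongruenceSubgroup.Gamma0 N)
  have hidx : (CongruenceSubgroup.Gamma0 N).index = Nat.card (XX N) := rfl
  have hW : Module.finrank ratJ (modFunField (CongruenceSubgroup.Gamma0 N))
      ≤ Module.finrank (IntermediateField.adjoin Kbar {jF N}) (FF N) := by
    rw [P.finrank_eq, ← hidx]
    exact hle
  have := @mem_range_of_isIntegral_of_finrank_le Kbar ℂ (FF N) MerH _ _ _ _ _ algKC _ _ algKM tow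
    φ (jF N) jM (Phi_jF N) transcendental_jM P.finiteDimensional ratJ rfl
    (modFunField (CongruenceSubgroup.Gamma0 N)) hfd hW
    (fun e => Phi_mem_modFunField N e) h hh hint
  obtain ⟨g, hg⟩ := this
  exact ⟨g, hg⟩

/-- **INJ.** A `Γ₀(N)`-invariant meromorphic function on `ℍ` whose `n`-th power (`n > 0`) comes
from the function field `FF N` of `X₀(N)` over `ℚ̄` itself comes from `FF N`. -/
theorem exists_Phi_eq_of_pow_eq {h : MerH} {n : ℕ} (hn : 0 < n)
    (hinv : ∀ γ ∈ CongruenceSubgroup.Gamma0 N, γ • h = h) {g₀ : FF N}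
    (hpow : h ^ n = Phi N g₀) : ∃ g : FF N, Phi N g = h := by
  have hh : h ∈ modFunField (CongruenceSubgroup.Gamma0 N) := by
    apply mem_modFunField_of_pow hn hinv
    rw [hpow]
    exact Phi_mem_modFunField N g₀
  refine mem_range_Phi_of_isIntegral N hh
    ⟨Polynomial.X ^ n - Polynomial.C g₀, Polynomial.monic_X_pow_sub_C g₀ hn.ne', ?_⟩
  simp [hpow]

end Fermat.Agent.A3.H199
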